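import Fermat.Agent.H81.FrobExists

/-!
# P-S14 (T-loc): basic valuation-theoretic tools

* `exists_smul_eq_of_forall_fixed`: a closed subgroup `H` of `Gal(ℚ̄/ℚ)` acts transitively on
  the primes of `ℤ̄` having the same restriction to the `H`-invariants;
* `mem_decompositionSubgroup_of_integral`: criterion for membership in a decomposition group;
* `exists_pow_valuation_le_prime`: valuation subrings over `p` have rank one on integers.
-/

set_option autoImplicit false
set_option linter.style.haveILetI false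

namespace Fermat.Agent.H81

open IsLocalRing Polynomial
open scoped Pointwise

local notation "Qbar" => AlgebraicClosure ℚ
local notation "Γ" => (AlgebraicClosure ℚ ≃ₐ[ℚ] AlgebraicClosure ℚ)
local notation "𝓑" => integralClosure ℤ (AlgebraicClosure ℚ)

/-- A closed subgroup `H` of `Gal(ℚ̄/ℚ)` acts transitively on the primes of `ℤ̄` with the same
restriction to the `H`-invariants. -/
theorem exists_smul_eq_of_forall_fixed (H : Subgroup Γ) (hH : IsClosed (H : Set Γ))
    (P Q : Ideal 𝓑) [P.IsPrime] [Q.IsPrime]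
    (hPQ : ∀ b : 𝓑, (∀ h ∈ H, h • b = b) → (b ∈ P ↔ b ∈ Q)) :
    ∃ h ∈ H, Q = h • P := by
  haveI hcomm : SMulCommClass H (FixedPoints.subalgebra ℤ 𝓑 H) 𝓑 :=
    instSMulCommClassSubtypeMemSubalgebraSubalgebra ℤ 𝓑 H
  letI : TopologicalSpace 𝓑 := ⊥
  haveI : DiscreteTopology 𝓑 := ⟨rfl⟩
  haveI : ContinuousSMul Γ 𝓑 := continuousSMul_integralClosure
  haveI := isGalois_rat_Qbar
  haveI := isAlgebraic_rat_Qbar
  haveI : CompactSpace H := isCompact_iff_compactSpace.mp hH.isCompact
  haveI : TotallyDisconnectedSpace H := Subtype.totallyDisconnectedSpace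
  haveI : ContinuousSMul H 𝓑 := by
    constructor
    have h1 : Continuous fun q : Γ × 𝓑 => q.1 • q.2 := continuous_smul
    exact h1.comp (Continuous.prodMap continuous_subtype_val continuous_id)
  haveI : Algebra.IsInvariant (FixedPoints.subalgebra ℤ 𝓑 H) 𝓑 H :=
    ⟨fun b hb => ⟨⟨b, hb⟩, rfl⟩⟩
  have hunder : P.under (FixedPoints.subalgebra ℤ 𝓑 H) =
      Q.under (FixedPoints.subalgebra ℤ 𝓑 H) := by
    ext ⟨b, hb⟩
    simp only [Ideal.under_def, Ideal.mem_comap]
    exact hPQ b fun h hh => hb ⟨h, hh⟩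
  obtain ⟨g, hg⟩ := Algebra.IsInvariant.exists_smul_of_under_eq_of_profinite
    (A := FixedPoints.subalgebra ℤ 𝓑 H) (G := H) P Q hunder
  exact ⟨g.1, g.2, hg⟩

section decomp

variable {F L : Type*} [Field F] [Field L] [Algebra F L] [CharZero L]

/-- An automorphism preserving the set of algebraic integers which are non-units of `A` lies in
the decomposition group of `A`. -/
theorem mem_decompositionSubgroup_of_integral (halg : ∀ x : L, IsAlgebraic ℤ x)
    (A : ValuationSubring L) (σ : L ≃ₐ[F] L)
    (h1 : ∀ b : L, IsIntegral ℤ b → (A.valuation b < 1 ↔ A.valuation (σ b) < 1)) :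
    σ ∈ A.decompositionSubgroup F := by
  have hfw : ∀ x ∈ A, σ x ∈ A := fun x hx =>
    map_mem_of_integral halg A σ (fun b hb h => (h1 b hb).mpr h) hx
  have hbw : ∀ x ∈ A, σ⁻¹ x ∈ A := fun x hx => by
    refine map_mem_of_integral halg A σ⁻¹ (fun b hb h => ?_) hx
    have hb' : IsIntegral ℤ (σ⁻¹ b) :=
      hb.map ((σ⁻¹ : L ≃ₐ[F] L) : L →ₐ[F] L).toRingHom.toIntAlgHom
    have := (h1 (σ⁻¹ b) hb').mp h
    have e : σ (σ⁻¹ b) = b := by
      change (σ * σ⁻¹) b = b
      rw [mul_inv_cancel]
      rfl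
    rwa [e] at this
  rw [ValuationSubring.decompositionSubgroup, MulAction.mem_stabilizer_iff]
  ext x
  rw [ValuationSubring.mem_pointwise_smul_iff_inv_smul_mem]
  constructor
  · intro hx
    have := hfw _ hx
    have e : σ (σ⁻¹ • x) = x := by
      change (σ * σ⁻¹) x = x
      rw [mul_inv_cancel]
      rfl
    rwa [e] at this
  · intro hx
    exact hbw x hx

end decomp

section rankone

variable {L : Type*} [Field L]

/-- An integer prime to `p` is a unit in a valuation subring over `p`. -/
theorem valuation_intCast_eq_one_of_not_dvd (A : ValuationSubring L) {p : ℕ} (hp : p.Prime)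
    (hA : A.LiesOverPrime p) {a : ℤ} (ha : ¬ (p : ℤ) ∣ a) : A.valuation (a : L) = 1 := by
  have hvp : A.valuation (p : L) < 1 := A.mem_nonunits_iff.mp hA
  refine le_antisymm (valuation_intCast_le_one A a) ?_
  by_contra hlt
  push Not at hlt
  have hcop : IsCoprime (p : ℤ) a :=
    (Prime.coprime_iff_not_dvd (Nat.prime_iff_prime_int.1 hp)).2 ha
  obtain ⟨s, t, hst⟩ := hcop
  have h1 : ((s * p + t * a : ℤ) : L) = 1 := by rw [hst]; simp
  have h2 : A.valuation ((s * p + t * a : ℤ) : L) < 1 := by
    push_cast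
    refine A.valuation.map_add_lt ?_ ?_
    · rw [map_mul]
      exact mul_lt_one_of_nonneg_of_lt_one_right (valuation_intCast_le_one A s) zero_le hvp
    · rw [map_mul]
      exact mul_lt_one_of_nonneg_of_lt_one_right (valuation_intCast_le_one A t) zero_le hlt
  rw [h1, map_one] at h2
  exact lt_irrefl _ h2

/-- **Rank one**: a non-unit algebraic integer has a power divisible by `p` in a valuation
subring over `p`. -/
theorem exists_pow_valuation_le_prime (A : ValuationSubring L) {p : ℕ} (hp : p.Prime)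
    (hA : A.LiesOverPrime p) {x : L} (hx : IsIntegral ℤ x) (hv : A.valuation x < 1) :
    ∃ n : ℕ, A.valuation (x ^ n) ≤ A.valuation (p : L) := by
  by_cases hx0 : x = 0
  · exact ⟨1, by simp [hx0]⟩
  have hvx0 : A.valuation x ≠ 0 := (Valuation.ne_zero_iff _).mpr hx0
  obtain ⟨f, hmonic, hroot⟩ := hx
  have hvp : A.valuation (p : L) < 1 := A.mem_nonunits_iff.mp hA
  classical
  let S := (Finset.range (f.natDegree + 1)).filter fun i => ¬ (p : ℤ) ∣ f.coeff i
  have hdS : f.natDegree ∈ S := by
    simp only [S, Finset.mem_filter, Finset.mem_range]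
    refine ⟨Nat.lt_succ_self _, ?_⟩
    rw [Polynomial.coeff_natDegree, hmonic.leadingCoeff]
    intro h
    have h1 : (p : ℕ) ∣ 1 := by exact_mod_cast h
    exact hp.one_lt.ne' (Nat.dvd_one.mp h1)
  let j := S.min' ⟨_, hdS⟩
  have hjS : j ∈ S := Finset.min'_mem _ _
  have hjle : j ≤ f.natDegree := Finset.min'_le _ _ hdS
  have hjcoeff : ¬ (p : ℤ) ∣ f.coeff j := (Finset.mem_filter.mp hjS).2
  have hlow : ∀ i, i < j → (p : ℤ) ∣ f.coeff i := by
    intro i hi
    by_contra hni
    have hiS : i ∈ S := by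
      simp only [S, Finset.mem_filter, Finset.mem_range]
      exact ⟨by omega, hni⟩
    exact absurd (Finset.min'_le _ _ hiS) (not_le.mpr hi)
  refine ⟨j, ?_⟩
  rw [Polynomial.eval₂_eq_sum_range] at hroot
  have hsplit : Finset.range (f.natDegree + 1) =
      Finset.range j ∪ ({j} ∪ Finset.Ioc j f.natDegree) := by
    ext i
    simp only [Finset.mem_range, Finset.mem_union, Finset.mem_singleton, Finset.mem_Ioc]
    omega
  rw [hsplit, Finset.sum_union, Finset.sum_union, Finset.sum_singleton] at hroot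
  rotate_left
  · rw [Finset.disjoint_left]
    intro i hi hi'
    simp only [Finset.mem_singleton] at hi
    simp only [Finset.mem_Ioc] at hi'
    omega
  · rw [Finset.disjoint_left]
    intro i hi hi'
    simp only [Finset.mem_range] at hi
    simp only [Finset.mem_union, Finset.mem_singleton, Finset.mem_Ioc] at hi'
    omega
  set T₁ := ∑ i ∈ Finset.range j, (algebraMap ℤ L) (f.coeff i) * x ^ i with hT₁
  set T₃ := ∑ i ∈ Finset.Ioc j f.natDegree, (algebraMap ℤ L) (f.coeff i) * x ^ i with hT₃
  have hv1 : A.valuation T₁ ≤ A.valuation (p : L) := by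
    refine A.valuation.map_sum_le fun i hi => ?_
    obtain ⟨k, hk⟩ := hlow i (Finset.mem_range.mp hi)
    rw [hk, eq_intCast]
    push_cast
    rw [map_mul, map_mul, mul_assoc]
    refine mul_le_of_le_one_right zero_le ?_
    refine mul_le_one' (valuation_intCast_le_one A k) ?_
    rw [map_pow]
    exact pow_le_one₀ zero_le hv.le
  have hv2 : A.valuation ((algebraMap ℤ L) (f.coeff j) * x ^ j) = A.valuation (x ^ j) := by
    rw [map_mul, eq_intCast, valuation_intCast_eq_one_of_not_dvd A hp hA hjcoeff, one_mul]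
  have hv3 : A.valuation T₃ < A.valuation (x ^ j) := by
    refine A.valuation.map_sum_lt ?_ fun i hi => ?_
    · rw [map_pow]
      exact pow_ne_zero _ hvx0
    · have hji : j < i := (Finset.mem_Ioc.mp hi).1
      rw [map_mul, eq_intCast, map_pow, map_pow]
      calc A.valuation ((f.coeff i : ℤ) : L) * A.valuation x ^ i
          ≤ 1 * A.valuation x ^ i := by
            gcongr
            exact valuation_intCast_le_one A _
        _ = A.valuation x ^ i := one_mul _
        _ < A.valuation x ^ j := pow_lt_pow_right_of_lt_one₀ (zero_lt_iff.mpr hvx0) hv hji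
  have hsum : (algebraMap ℤ L) (f.coeff j) * x ^ j + T₃ = -T₁ := by
    linear_combination hroot
  have hv23 : A.valuation ((algebraMap ℤ L) (f.coeff j) * x ^ j + T₃) = A.valuation (x ^ j) := by
    rw [← hv2]
    exact A.valuation.map_add_eq_of_lt_left (by rw [hv2]; exact hv3)
  rw [← hv23, hsum, Valuation.map_neg]
  exact hv1

end rankone

/-- If the places `A` and `σ⁻¹ A` of `ℚ̄` have the same restriction to the invariants of the
closed subgroup `H`, then `σ * h` lies in the decomposition group of `A` for some `h ∈ H`. -/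
theorem exists_mul_mem_decompositionSubgroup (H : Subgroup Γ) (hH : IsClosed (H : Set Γ))
    (A : ValuationSubring Qbar) (σ : Γ)
    (hσ : ∀ b : Qbar, IsIntegral ℤ b → (∀ h ∈ H, h b = b) →
      (A.valuation b < 1 ↔ A.valuation (σ b) < 1)) :
    ∃ h ∈ H, σ * h ∈ A.decompositionSubgroup ℚ := by
  haveI := nonunitIdeal_isPrime A
  have hPQ : ∀ b : 𝓑, (∀ h ∈ H, h • b = b) → (b ∈ nonunitIdeal A ↔ b ∈ σ⁻¹ • nonunitIdeal A) := by
    intro b hb
    rw [Ideal.mem_inv_pointwise_smul_iff, mem_nonunitIdeal, mem_nonunitIdeal]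
    exact hσ b b.2 fun h hh => congrArg Subtype.val (hb h hh)
  obtain ⟨h, hh, hQ⟩ := exists_smul_eq_of_forall_fixed H hH (nonunitIdeal A)
    (σ⁻¹ • nonunitIdeal A) hPQ
  refine ⟨h, hh, ?_⟩
  have hstab : (σ * h) • nonunitIdeal A = nonunitIdeal A := by
    rw [mul_smul, ← hQ, smul_inv_smul]
  refine mem_decompositionSubgroup_of_integral isAlgebraic_int_Qbar A (σ * h) fun b hb => ?_
  have h1 := Ideal.smul_mem_pointwise_smul_iff (a := σ * h) (S := nonunitIdeal A)
    (x := (⟨b, hb⟩ : 𝓑))
  rw [hstab] at h1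
  exact h1.symm

end Fermat.Agent.H81
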