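import Fermat.Agent.H81.S14.Ideals

set_option autoImplicit false
set_option linter.style.haveILetI false

namespace Fermat.Agent.H81

open IsLocalRing Polynomial
open scoped Pointwise

local notation "Qbar" => AlgebraicClosure ℚ
local notation "Γ" => (AlgebraicClosure ℚ ≃ₐ[ℚ] AlgebraicClosure ℚ)
local notation "𝓑" => integralClosure ℤ (AlgebraicClosure ℚ)

section crt

variable (A : ValuationSubring Qbar) (H : Subgroup Γ)

lemma exists_pow_mem_ballIdeal {p : ℕ} (hp : p.Prime) (hA : A.LiesOverPrime p) (σ : Γ) (m : ℕ)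
    {x : invRing H} (hx : x ∈ primeAt A H σ) :
    ∃ n : ℕ, x ^ n ∈ ballIdeal A H σ ((p : Qbar) ^ m) := by
  obtain ⟨n, hn⟩ := exists_pow_valuation_le_prime A hp hA (invRing_map_isIntegral H σ x) hx
  refine ⟨n * m, ?_⟩
  rw [mem_ballIdeal]
  have : ((((x ^ (n * m) : invRing H) : 𝓑) : Qbar)) = (((x : 𝓑) : Qbar)) ^ (n * m) := rfl
  rw [this, map_pow, pow_mul, map_pow, map_pow, map_pow]
  rw [map_pow] at hn
  exact pow_le_pow_left₀ zero_le hn m

lemma ballIdeal_sup_eq_top {p : ℕ} (hp : p.Prime) (hA : A.LiesOverPrime p) (σ τ : Γ) (m : ℕ)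
    (hne : primeAt A H σ ≠ primeAt A H τ) :
    ballIdeal A H σ ((p : Qbar) ^ m) ⊔ ballIdeal A H τ ((p : Qbar) ^ m) = ⊤ := by
  by_contra h
  obtain ⟨M, hM, hle⟩ := Ideal.exists_le_maximal _ h
  have h1 : primeAt A H σ ≤ M := by
    intro x hx
    obtain ⟨n, hn⟩ := exists_pow_mem_ballIdeal A H hp hA σ m hx
    exact hM.isPrime.mem_of_pow_mem n (hle (Ideal.mem_sup_left hn))
  have h2 : primeAt A H τ ≤ M := by
    intro x hx
    obtain ⟨n, hn⟩ := exists_pow_mem_ballIdeal A H hp hA τ m hx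
    exact hM.isPrime.mem_of_pow_mem n (hle (Ideal.mem_sup_right hn))
  have e1 := (primeAt_isMaximal A H hp hA σ).eq_of_le hM.ne_top h1
  have e2 := (primeAt_isMaximal A H hp hA τ).eq_of_le hM.ne_top h2
  exact hne (e1.trans e2.symm)

/-- Chinese remainder theorem: an invariant integer close to `1` at `σ₀` and close to `0` at the
finitely many places `σ i`. -/
lemma exists_crt {p : ℕ} (hp : p.Prime) (hA : A.LiesOverPrime p) {ι : Type*} (s : Finset ι)
    (σ₀ : Γ) (σ : ι → Γ) (m : ℕ)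
    (hne : ∀ i ∈ s, primeAt A H σ₀ ≠ primeAt A H (σ i)) :
    ∃ w : invRing H,
      A.valuation (σ₀ (((w : 𝓑) : Qbar)) - 1) ≤ A.valuation ((p : Qbar) ^ m) ∧
      ∀ i ∈ s, A.valuation (σ i (((w : 𝓑) : Qbar))) ≤ A.valuation ((p : Qbar) ^ m) := by
  have htop : ballIdeal A H σ₀ ((p : Qbar) ^ m) ⊔
      ⨅ i ∈ s, ballIdeal A H (σ i) ((p : Qbar) ^ m) = ⊤ :=
    Ideal.sup_iInf_eq_top fun i hi => ballIdeal_sup_eq_top A H hp hA σ₀ (σ i) m (hne i hi)
  have h1 : (1 : invRing H) ∈ ballIdeal A H σ₀ ((p : Qbar) ^ m) ⊔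
      ⨅ i ∈ s, ballIdeal A H (σ i) ((p : Qbar) ^ m) := by
    rw [htop]; trivial
  obtain ⟨a, ha, b, hb, hab⟩ := Submodule.mem_sup.mp h1
  refine ⟨b, ?_, fun i hi => ?_⟩
  · have e : (((b : 𝓑) : Qbar)) - 1 = -(((a : 𝓑) : Qbar)) := by
      have : (((a : 𝓑) : Qbar)) + (((b : 𝓑) : Qbar)) = 1 := by
        have := congrArg (fun z : invRing H => (((z : 𝓑) : Qbar))) hab
        exact this
      linear_combination this
    have e' : σ₀ (((b : 𝓑) : Qbar)) - 1 = -(σ₀ (((a : 𝓑) : Qbar))) := by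
      rw [← map_one σ₀, ← map_sub, e, map_neg]
    rw [e', Valuation.map_neg]
    exact ha
  · have := (Submodule.mem_iInf _).mp hb i
    have := (Submodule.mem_iInf _).mp this hi
    exact this

end crt

end Fermat.Agent.H81
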