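import Mathlib
import Fermat.Agent.H81.S14.CRT

set_option autoImplicit false
set_option linter.style.haveILetI false

namespace Fermat.Agent.H81

open IsLocalRing Polynomial
open scoped Pointwise

local notation "Qbar" => AlgebraicClosure ℚ
local notation "Γ" => (AlgebraicClosure ℚ ≃ₐ[ℚ] AlgebraicClosure ℚ)
local notation "𝓑" => integralClosure ℤ (AlgebraicClosure ℚ)

/-- **Decomposition field has `e = f = 1`** (Kummer case): if `y` is an algebraic integer with
`σ y ∈ μ_p · y` for all `σ` in the closed subgroup `S` (which fixes `ζ`), `g y = ζ y` for some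
`g ∈ S`, and `y` is fixed by `D_A ∩ S`, then `y` is congruent modulo `p^m A` to an `S`-invariant
algebraic integer. -/
theorem exists_invariant_approx
    {p : ℕ} (hp : p.Prime) (A : ValuationSubring Qbar) (hA : A.LiesOverPrime p)
    (S : Subgroup Γ) (hS : IsClosed (S : Set Γ))
    (ζ : Qbar) (hζ : IsPrimitiveRoot ζ p) (hSζ : ∀ σ ∈ S, σ ζ = ζ)
    (y : Qbar) (hy : IsIntegral ℤ y) (hy0 : y ≠ 0)
    (hyS : ∀ σ ∈ S, ∃ j : ℕ, σ y = ζ ^ j * y)
    (g : Γ) (hg : g ∈ S) (hgy : g y = ζ * y)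
    (hfix : ∀ τ ∈ A.decompositionSubgroup ℚ, τ ∈ S → τ y = y)
    (m : ℕ) :
    ∃ t : Qbar, IsIntegral ℤ t ∧ (∀ σ ∈ S, σ t = t) ∧
      A.valuation (t - y) ≤ A.valuation ((p : Qbar) ^ m) := by
  classical
  haveI : Fact p.Prime := ⟨hp⟩
  haveI : NeZero p := ⟨hp.ne_zero⟩
  haveI := isAlgebraic_rat_Qbar
  set H : Subgroup Γ := S ⊓ MulAction.stabilizer Γ y with hHdef
  have hHclosed : IsClosed (H : Set Γ) := by
    have h2 : IsClosed (MulAction.stabilizer Γ y : Set Γ) :=
      Subgroup.isClosed_of_isOpen _ (stabilizer_isOpen_of_isIntegral y)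
    have : (H : Set Γ) = (S : Set Γ) ∩ (MulAction.stabilizer Γ y : Set Γ) := by
      rw [hHdef]; rfl
    rw [this]
    exact hS.inter h2
  have hHS : ∀ h ∈ H, h ∈ S := fun h hh => (Subgroup.mem_inf.mp hh).1
  have hHy : ∀ h ∈ H, h y = y := fun h hh => (Subgroup.mem_inf.mp hh).2
  have hHmem : ∀ h : Γ, h ∈ S → h y = y → h ∈ H := fun h h1 h2 => Subgroup.mem_inf.mpr ⟨h1, h2⟩
  -- powers of g
  have hgS : ∀ k : ℕ, g ^ k ∈ S := fun k => S.pow_mem hg k
  have hgpow : ∀ k : ℕ, (g ^ k) y = ζ ^ k * y := by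
    intro k
    induction k with
    | zero => simp
    | succ k ih =>
      rw [pow_succ, AlgEquiv.mul_apply, hgy, map_mul, ih, hSζ _ (hgS k), pow_succ]
      ring
  -- distinctness of the places
  have hclaim : ∀ k : ℕ, ζ ^ k ≠ 1 → primeAt A H 1 ≠ primeAt A H (g ^ k) := by
    intro k hk heq
    obtain ⟨h, hh, hτ⟩ := exists_mul_mem_decompositionSubgroup H hHclosed A (g ^ k) (by
      intro b hb hfixed
      have h1 : (⟨⟨b, hb⟩, fun h => Subtype.ext (hfixed h.1 h.2)⟩ : invRing H) ∈ primeAt A H 1 ↔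
          (⟨⟨b, hb⟩, fun h => Subtype.ext (hfixed h.1 h.2)⟩ : invRing H) ∈ primeAt A H (g ^ k) := by
        rw [heq]
      exact h1)
    have h1 := hfix _ hτ (S.mul_mem (hgS k) (hHS h hh))
    rw [AlgEquiv.mul_apply, hHy h hh, hgpow] at h1
    apply hk
    have h2 : (ζ ^ k - 1) * y = 0 := by linear_combination h1
    rcases mul_eq_zero.mp h2 with h3 | h3
    · exact sub_eq_zero.mp h3
    · exact absurd h3 hy0
  have hval : ∀ a : ZMod p, a ≠ 0 → ζ ^ a.val ≠ 1 := by
    intro a ha h1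
    rw [hζ.pow_eq_one_iff_dvd] at h1
    have h2 : a.val < p := ZMod.val_lt a
    have h3 : a.val ≠ 0 := fun h => ha ((ZMod.val_eq_zero a).mp h)
    exact h3 (Nat.eq_zero_of_dvd_of_lt h1 h2)
  -- CRT
  obtain ⟨w, hw1, hwk⟩ := exists_crt A H hp hA ((Finset.univ : Finset (ZMod p)).erase 0)
    (1 : Γ) (fun a : ZMod p => g ^ a.val) m (by
      intro a ha
      exact hclaim _ (hval a (Finset.ne_of_mem_erase ha)))
  set wq : Qbar := ((w : 𝓑) : Qbar) with hwq
  have hwint : IsIntegral ℤ wq := invRing_isIntegral H w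
  have hwfix : ∀ h ∈ H, h wq = wq := by
    intro h hh
    have := w.2 ⟨h, hh⟩
    exact congrArg Subtype.val this
  set x : Qbar := y * wq with hx
  have hxfix : ∀ h ∈ H, h x = x := by
    intro h hh
    rw [hx, map_mul, hHy h hh, hwfix h hh]
  have hxint : IsIntegral ℤ x := hy.mul hwint
  -- two elements of S with the same value on y agree on x
  have hagree : ∀ τ₁ ∈ S, ∀ τ₂ ∈ S, τ₁ y = τ₂ y → τ₁ x = τ₂ x := by
    intro τ₁ h1 τ₂ h2 h12
    have hmem : τ₂⁻¹ * τ₁ ∈ H := by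
      refine hHmem _ (S.mul_mem (S.inv_mem h2) h1) ?_
      rw [AlgEquiv.mul_apply, h12]
      change (τ₂⁻¹ * τ₂) y = y
      rw [inv_mul_cancel]
      rfl
    have := hxfix _ hmem
    rw [AlgEquiv.mul_apply] at this
    have h3 := congrArg τ₂ this
    have e : τ₂ (τ₂⁻¹ (τ₁ x)) = τ₁ x := by
      change (τ₂ * τ₂⁻¹) (τ₁ x) = τ₁ x
      rw [mul_inv_cancel]
      rfl
    rw [e] at h3
    exact h3
  have hζpow : ∀ a b : ZMod p, ζ ^ (a + b).val = ζ ^ a.val * ζ ^ b.val := by
    intro a b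
    rw [← pow_add, ZMod.val_add, pow_eq_pow_mod (a.val + b.val) hζ.pow_eq_one]
  refine ⟨∑ a : ZMod p, (g ^ a.val) x, ?_, ?_, ?_⟩
  · refine IsIntegral.sum _ fun a _ => ?_
    exact hxint.map ((g ^ a.val : Γ) : Qbar →ₐ[ℚ] Qbar).toRingHom.toIntAlgHom
  · intro σ hσ
    obtain ⟨j, hj⟩ := hyS σ hσ
    rw [map_sum]
    have hterm : ∀ a : ZMod p, σ ((g ^ a.val) x) = (g ^ (a + (j : ZMod p)).val) x := by
      intro a
      have h1 : (σ * g ^ a.val) x = (g ^ (a + (j : ZMod p)).val) x := by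
        refine hagree _ (S.mul_mem hσ (hgS _)) _ (hgS _) ?_
        rw [AlgEquiv.mul_apply, hgpow, hgpow, map_mul, map_pow, hSζ σ hσ, hj, hζpow,
          ZMod.val_natCast, ← pow_eq_pow_mod j hζ.pow_eq_one]
        ring
      exact h1
    rw [Finset.sum_congr rfl fun a _ => hterm a]
    exact Equiv.sum_comp (Equiv.addRight (j : ZMod p)) fun a : ZMod p => (g ^ a.val) x
  · rw [← Finset.add_sum_erase Finset.univ (fun a : ZMod p => (g ^ a.val) x)
      (Finset.mem_univ (0 : ZMod p))]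
    have h0 : (g ^ (0 : ZMod p).val) x = x := by simp
    rw [h0]
    have e : x + ∑ a ∈ (Finset.univ : Finset (ZMod p)).erase 0, (g ^ a.val) x - y
        = y * (wq - 1) + ∑ a ∈ (Finset.univ : Finset (ZMod p)).erase 0, (g ^ a.val) x := by
      rw [hx]; ring
    rw [e]
    have hyle : A.valuation y ≤ 1 :=
      (A.valuation_le_one_iff _).mpr (mem_valuationSubring_of_isIntegral_int A hy)
    refine A.valuation.map_add_le ?_ (A.valuation.map_sum_le fun a ha => ?_)
    · rw [map_mul]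
      have hw1' : A.valuation (wq - 1) ≤ A.valuation ((p : Qbar) ^ m) := by
        simpa using hw1
      calc A.valuation y * A.valuation (wq - 1) ≤ 1 * A.valuation ((p : Qbar) ^ m) :=
            mul_le_mul' hyle hw1'
        _ = _ := one_mul _
    · rw [hx, map_mul, map_mul]
      have h1 : A.valuation ((g ^ a.val) y) ≤ 1 :=
        (A.valuation_le_one_iff _).mpr (mem_valuationSubring_of_isIntegral_int A
          (hy.map ((g ^ a.val : Γ) : Qbar →ₐ[ℚ] Qbar).toRingHom.toIntAlgHom))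
      calc A.valuation ((g ^ a.val) y) * A.valuation ((g ^ a.val) wq)
          ≤ 1 * A.valuation ((p : Qbar) ^ m) := mul_le_mul' h1 (hwk a ha)
        _ = _ := one_mul _

end Fermat.Agent.H81
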