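import Mathlib
import Fermat.Agent.H81.S14.Core
import Fermat.Agent.H13.S14Interfaces
import Fermat.Agent.H9.Descent

set_option autoImplicit false
set_option linter.style.haveILetI false
set_option linter.unusedSectionVars false

namespace Fermat.Agent.H81

open IsLocalRing Polynomial NumberField
open scoped Pointwise

local notation "Qbar" => AlgebraicClosure ℚ
local notation "Γ" => (AlgebraicClosure ℚ ≃ₐ[ℚ] AlgebraicClosure ℚ)
local notation "𝓑" => integralClosure ℤ (AlgebraicClosure ℚ)

section descent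

variable {p : ℕ} [Fact p.Prime] {K : Type} [Field K] [NumberField K]
  [IsCyclotomicExtension {p} ℚ K] (ι : K →ₐ[ℚ] Qbar) {ζ : K} (hζ : IsPrimitiveRoot ζ p)
  (A : ValuationSubring Qbar)

/-- The embedding of the ring of integers of `K` into `ℚ̄`. -/
noncomputable def intEmb : 𝓞 K →+* Qbar := (ι : K →+* Qbar).comp (algebraMap (𝓞 K) K)

lemma intEmb_apply (z : 𝓞 K) : intEmb ι z = ι (z : K) := rfl

lemma intEmb_isIntegral (z : 𝓞 K) : IsIntegral ℤ (intEmb ι z) :=
  (RingOfIntegers.isIntegral_coe z).map ι.toRingHom.toIntAlgHom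

lemma valuation_intEmb_le_one (z : 𝓞 K) : A.valuation (intEmb ι z) ≤ 1 :=
  (A.valuation_le_one_iff _).mpr (mem_valuationSubring_of_isIntegral_int A (intEmb_isIntegral ι z))

lemma intEmb_injective : Function.Injective (intEmb (K := K) ι) :=
  ι.toRingHom.injective.comp RingOfIntegers.coe_injective

include hζ in
lemma valuation_pi_lt_one (hA : A.LiesOverPrime p) :
    A.valuation (intEmb ι (hζ.toInteger - 1)) < 1 := by
  have hvp : A.valuation (p : Qbar) < 1 := A.mem_nonunits_iff.mp hA
  refine lt_of_le_of_ne (valuation_intEmb_le_one ι A _) fun h1 => ?_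
  obtain ⟨s, hs⟩ := (IsCyclotomicExtension.Rat.associated_zeta_sub_one_pow_prime p hζ).symm.dvd
  have h3 := congrArg (fun z => A.valuation (intEmb ι z)) hs
  simp only [map_pow, map_mul, map_natCast] at h3
  rw [h1, one_pow] at h3
  have h4 : A.valuation (p : Qbar) * A.valuation (intEmb ι s) < 1 :=
    mul_lt_one_of_nonneg_of_lt_one_left zero_le hvp (valuation_intEmb_le_one ι A s)
  rw [← h3] at h4
  exact lt_irrefl _ h4

include hζ in
lemma valuation_prime_le_pi :
    A.valuation (p : Qbar) ≤ A.valuation (intEmb ι (hζ.toInteger - 1)) := by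
  obtain ⟨s, hs⟩ := hζ.toInteger_sub_one_dvd_prime'
  have h3 := congrArg (fun z => A.valuation (intEmb ι z)) hs
  simp only [map_mul, map_natCast] at h3
  rw [h3]
  exact mul_le_of_le_one_right zero_le (valuation_intEmb_le_one ι A s)

include hζ in
/-- An integer of `K` which is a non-unit at `A` is divisible by `π = ζ - 1`. -/
lemma pi_dvd_of_valuation_lt_one (hodd : p ≠ 2) (hA : A.LiesOverPrime p) {z : 𝓞 K}
    (hz : A.valuation (intEmb ι z) < 1) : hζ.toInteger - 1 ∣ z := by
  have hp : p.Prime := Fact.out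
  have hπ : Prime (hζ.toInteger - 1) := hζ.zeta_sub_one_prime'
  have hcard : Nat.card (𝓞 K ⧸ Ideal.span {hζ.toInteger - 1}) = p := by
    rw [IsPrimitiveRoot.card_quotient_toInteger_sub_one,
      hζ.norm_toInteger_sub_one_of_prime_ne_two' hodd]
    simp
  have hπp : (hζ.toInteger - 1) ∣ (p : 𝓞 K) := hζ.toInteger_sub_one_dvd_prime'
  obtain ⟨c, s, hs⟩ := Fermat.Agent.H9.exists_int_sub_dvd hp hπ hπp hcard z
  have hc : A.valuation ((c : ℤ) : Qbar) < 1 := by
    have e : ((c : ℤ) : Qbar) = intEmb ι z - intEmb ι (hζ.toInteger - 1) * intEmb ι s := by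
      rw [← map_mul, ← hs, map_sub, map_intCast]
      ring
    rw [e]
    refine A.valuation.map_sub_lt hz ?_
    rw [map_mul]
    exact mul_lt_one_of_nonneg_of_lt_one_left zero_le (valuation_pi_lt_one ι hζ A hA)
      (valuation_intEmb_le_one ι A s)
  have hpc : (p : ℤ) ∣ c := by
    by_contra hnd
    rw [valuation_intCast_eq_one_of_not_dvd A hp hA hnd] at hc
    exact lt_irrefl _ hc
  have h1 : hζ.toInteger - 1 ∣ (c : 𝓞 K) :=
    (Fermat.Agent.H9.pi_dvd_intCast_iff hp hπ hπp).mpr hpc
  have h2 : z = (z - (c : 𝓞 K)) + (c : 𝓞 K) := by ring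
  rw [h2]
  exact dvd_add ⟨s, hs⟩ h1

include hζ in
/-- Descent of congruences from `A` to `𝓞 K`. -/
lemma pi_pow_dvd_of_valuation_le (hodd : p ≠ 2) (hA : A.LiesOverPrime p) (n : ℕ) :
    ∀ z : 𝓞 K, A.valuation (intEmb ι z) ≤ A.valuation (intEmb ι (hζ.toInteger - 1)) ^ n →
      (hζ.toInteger - 1) ^ n ∣ z := by
  have hπ0 : A.valuation (intEmb ι (hζ.toInteger - 1)) ≠ 0 := by
    rw [Valuation.ne_zero_iff]
    intro h
    have := intEmb_injective ι (h.trans (map_zero _).symm)
    exact hζ.zeta_sub_one_prime'.ne_zero this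
  induction n with
  | zero => intro z _; simp
  | succ n ih =>
    intro z hz
    have hlt : A.valuation (intEmb ι z) < 1 := by
      refine lt_of_le_of_lt hz ?_
      exact pow_lt_one₀ zero_le (valuation_pi_lt_one ι hζ A hA) (Nat.succ_ne_zero n)
    obtain ⟨z₁, rfl⟩ := pi_dvd_of_valuation_lt_one ι hζ A hodd hA hlt
    rw [map_mul, map_mul, pow_succ'] at hz
    have h1 : A.valuation (intEmb ι z₁) ≤ A.valuation (intEmb ι (hζ.toInteger - 1)) ^ n :=
      le_of_mul_le_mul_left hz (zero_lt_iff.mpr hπ0)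
    rw [pow_succ']
    exact mul_dvd_mul_left _ (ih z₁ h1)

end descent

end Fermat.Agent.H81
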