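import Fermat.Agent.H81.S14.Basic

set_option autoImplicit false
set_option linter.style.haveILetI false

namespace Fermat.Agent.H81

open IsLocalRing Polynomial
open scoped Pointwise

local notation "Qbar" => AlgebraicClosure ℚ
local notation "Γ" => (AlgebraicClosure ℚ ≃ₐ[ℚ] AlgebraicClosure ℚ)
local notation "𝓑" => integralClosure ℤ (AlgebraicClosure ℚ)

section ideals

variable (A : ValuationSubring Qbar) (H : Subgroup Γ)

/-- The ring of `H`-invariant algebraic integers. -/
noncomputable abbrev invRing : Subalgebra ℤ 𝓑 := FixedPoints.subalgebra ℤ 𝓑 H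

lemma invRing_isIntegral (x : invRing H) : IsIntegral ℤ (((x : 𝓑) : Qbar)) := (x : 𝓑).2

lemma invRing_map_isIntegral (σ : Γ) (x : invRing H) : IsIntegral ℤ (σ ((x : 𝓑) : Qbar)) :=
  (invRing_isIntegral H x).map (σ : Qbar →ₐ[ℚ] Qbar).toRingHom.toIntAlgHom

lemma invRing_valuation_le_one (σ : Γ) (x : invRing H) :
    A.valuation (σ ((x : 𝓑) : Qbar)) ≤ 1 :=
  (A.valuation_le_one_iff _).mpr
    (mem_valuationSubring_of_isIntegral_int A (invRing_map_isIntegral H σ x))

/-- The ideal of invariant integers `x` with `v (σ x) ≤ v c`. -/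
noncomputable def ballIdeal (σ : Γ) (c : Qbar) : Ideal (invRing H) where
  carrier := {x | A.valuation (σ ((x : 𝓑) : Qbar)) ≤ A.valuation c}
  add_mem' := fun {a b} ha hb => by
    simp only [Set.mem_ofPred_eq] at *
    have : ((((a + b : invRing H) : 𝓑) : Qbar)) = ((a : 𝓑) : Qbar) + ((b : 𝓑) : Qbar) := rfl
    rw [this, map_add]
    exact A.valuation.map_add_le ha hb
  zero_mem' := by
    simp only [Set.mem_ofPred_eq]
    have : ((((0 : invRing H) : 𝓑) : Qbar)) = 0 := rfl
    rw [this, map_zero, map_zero]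
    exact zero_le
  smul_mem' := fun r x hx => by
    simp only [Set.mem_ofPred_eq] at *
    have : ((((r • x : invRing H) : 𝓑) : Qbar)) = ((r : 𝓑) : Qbar) * ((x : 𝓑) : Qbar) := rfl
    rw [this, map_mul, map_mul]
    calc A.valuation (σ ((r : 𝓑) : Qbar)) * A.valuation (σ ((x : 𝓑) : Qbar))
        ≤ 1 * A.valuation c := mul_le_mul' (invRing_valuation_le_one A H σ r) hx
      _ = A.valuation c := one_mul _

lemma mem_ballIdeal (σ : Γ) (c : Qbar) (x : invRing H) :
    x ∈ ballIdeal A H σ c ↔ A.valuation (σ ((x : 𝓑) : Qbar)) ≤ A.valuation c := Iff.rfl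

/-- The prime ideal of invariant integers `x` with `v (σ x) < 1`. -/
noncomputable def primeAt (σ : Γ) : Ideal (invRing H) where
  carrier := {x | A.valuation (σ ((x : 𝓑) : Qbar)) < 1}
  add_mem' := fun {a b} ha hb => by
    simp only [Set.mem_ofPred_eq] at *
    have : ((((a + b : invRing H) : 𝓑) : Qbar)) = ((a : 𝓑) : Qbar) + ((b : 𝓑) : Qbar) := rfl
    rw [this, map_add]
    exact A.valuation.map_add_lt ha hb
  zero_mem' := by
    simp only [Set.mem_ofPred_eq]
    have : ((((0 : invRing H) : 𝓑) : Qbar)) = 0 := rfl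
    rw [this, map_zero, map_zero]
    exact zero_lt_one
  smul_mem' := fun r x hx => by
    simp only [Set.mem_ofPred_eq] at *
    have : ((((r • x : invRing H) : 𝓑) : Qbar)) = ((r : 𝓑) : Qbar) * ((x : 𝓑) : Qbar) := rfl
    rw [this, map_mul, map_mul]
    exact mul_lt_one_of_nonneg_of_lt_one_right (invRing_valuation_le_one A H σ r) zero_le hx

lemma mem_primeAt (σ : Γ) (x : invRing H) :
    x ∈ primeAt A H σ ↔ A.valuation (σ ((x : 𝓑) : Qbar)) < 1 := Iff.rfl

lemma primeAt_isPrime (σ : Γ) : (primeAt A H σ).IsPrime := by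
  refine ⟨?_, ?_⟩
  · intro h
    have h1 : (1 : invRing H) ∈ primeAt A H σ := by rw [h]; trivial
    rw [mem_primeAt] at h1
    have : ((((1 : invRing H) : 𝓑) : Qbar)) = 1 := rfl
    rw [this, map_one, map_one] at h1
    exact lt_irrefl _ h1
  · intro a b hab
    rw [mem_primeAt] at hab
    have : ((((a * b : invRing H) : 𝓑) : Qbar)) = ((a : 𝓑) : Qbar) * ((b : 𝓑) : Qbar) := rfl
    rw [this, map_mul, map_mul] at hab
    by_contra hcon
    push Not at hcon
    rw [mem_primeAt, mem_primeAt, not_lt, not_lt] at hcon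
    have ha := le_antisymm (invRing_valuation_le_one A H σ a) hcon.1
    have hb := le_antisymm (invRing_valuation_le_one A H σ b) hcon.2
    rw [ha, hb, one_mul] at hab
    exact lt_irrefl _ hab

lemma invRing_algebra_isIntegral : Algebra.IsIntegral ℤ (invRing H) := by
  constructor
  intro x
  have h1 : IsIntegral ℤ (x : 𝓑) := by
    have := (x : 𝓑).2
    exact (isIntegral_algHom_iff (IsScalarTower.toAlgHom ℤ 𝓑 Qbar) Subtype.val_injective).mp this
  exact (isIntegral_algHom_iff (invRing H).val Subtype.val_injective).mp h1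

lemma primeAt_isMaximal {p : ℕ} (hp : p.Prime) (hA : A.LiesOverPrime p) (σ : Γ) :
    (primeAt A H σ).IsMaximal := by
  haveI := primeAt_isPrime A H σ
  haveI := invRing_algebra_isIntegral H
  have hpmem : (p : ℤ) ∈ (primeAt A H σ).comap (algebraMap ℤ (invRing H)) := by
    rw [Ideal.mem_comap, mem_primeAt]
    have : ((((algebraMap ℤ (invRing H) (p : ℤ) : invRing H) : 𝓑) : Qbar)) = (p : Qbar) := by
      simp
    rw [this, map_natCast]
    exact A.mem_nonunits_iff.mp hA
  have hne : (primeAt A H σ).comap (algebraMap ℤ (invRing H)) ≠ ⊥ := by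
    intro h
    rw [h, Ideal.mem_bot] at hpmem
    exact hp.ne_zero (by exact_mod_cast hpmem)
  have hmax : ((primeAt A H σ).comap (algebraMap ℤ (invRing H))).IsMaximal :=
    Ideal.IsPrime.isMaximal inferInstance hne
  exact Ideal.isMaximal_of_isIntegral_of_isMaximal_comap _ hmax

end ideals

end Fermat.Agent.H81
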