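import Mathlib
import Fermat.Agent.H81.S14.Descent

set_option autoImplicit false
set_option linter.style.haveILetI false
set_option linter.unusedSectionVars false

namespace Fermat.Agent.H81

open IsLocalRing Polynomial NumberField
open scoped Pointwise

local notation "Qbar" => AlgebraicClosure ℚ
local notation "Γ" => (AlgebraicClosure ℚ ≃ₐ[ℚ] AlgebraicClosure ℚ)
local notation "𝓑" => integralClosure ℤ (AlgebraicClosure ℚ)

section galois

variable {p : ℕ} [Fact p.Prime] {K : Type} [Field K] [NumberField K]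
  [IsCyclotomicExtension {p} ℚ K] (ι : K →ₐ[ℚ] Qbar) {ζ : K} (hζ : IsPrimitiveRoot ζ p)

include hζ in
/-- An automorphism of `ℚ̄` fixing `ι ζ` fixes `ι K` pointwise. -/
lemma map_eq_of_fixes_zeta (σ : Γ) (hσ : σ (ι ζ) = ι ζ) (x : K) : σ (ι x) = ι x := by
  haveI : NeZero p := ⟨(Fact.out : p.Prime).ne_zero⟩
  have hadj : Algebra.adjoin ℚ ({ζ} : Set K) = ⊤ :=
    IsCyclotomicExtension.adjoin_primitive_root_eq_top hζ
  have : (σ : Qbar →ₐ[ℚ] Qbar).comp ι = ι := by
    refine AlgHom.ext_of_adjoin_eq_top hadj ?_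
    intro z hz
    rw [Set.mem_singleton_iff] at hz
    subst hz
    exact hσ
  exact DFunLike.congr_fun this x

/-- An element of `ℚ̄` fixed by all automorphisms fixing `ι K` pointwise lies in `ι K`. -/
lemma mem_range_of_fixed (t : Qbar) (ht : ∀ σ : Γ, (∀ x : K, σ (ι x) = ι x) → σ t = t) :
    ∃ t₀ : K, ι t₀ = t := by
  haveI := isGalois_rat_Qbar
  have h1 : t ∈ IntermediateField.fixedField (ι.fieldRange).fixingSubgroup := by
    rw [IntermediateField.mem_fixedField_iff]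
    intro σ hσ
    refine ht σ fun x => ?_
    exact (IntermediateField.mem_fixingSubgroup_iff _ _).mp hσ (ι x) ⟨x, rfl⟩
  rw [InfiniteGalois.fixedField_fixingSubgroup] at h1
  exact h1

end galois

end Fermat.Agent.H81

namespace Fermat.Agent.H81

open IsLocalRing Polynomial NumberField
open scoped Pointwise

local notation "Qbar" => AlgebraicClosure ℚ
local notation "Γ" => (AlgebraicClosure ℚ ≃ₐ[ℚ] AlgebraicClosure ℚ)

/-- **T-loc** (P-S14): the local lemma at `p`. -/
theorem localLemma : Fermat.Agent.H13.LocalLemmaStatement := by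
  intro p _ h3 K _ _ _ ι ζ hζ u hu y hy hnot A hA hfix
  have hp : p.Prime := Fact.out
  have hodd : p ≠ 2 := by omega
  haveI : NeZero p := ⟨hp.ne_zero⟩
  haveI := isAlgebraic_rat_Qbar
  set ζ' : Qbar := ι ζ with hζ'def
  have hζ' : IsPrimitiveRoot ζ' p := hζ.map_of_injective ι.toRingHom.injective
  -- the subgroup fixing ζ'
  set S : Subgroup Γ := MulAction.stabilizer Γ ζ' with hSdef
  have hSclosed : IsClosed (S : Set Γ) :=
    Subgroup.isClosed_of_isOpen _ (stabilizer_isOpen_of_isIntegral ζ')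
  have hSζ : ∀ σ ∈ S, σ ζ' = ζ' := fun σ hσ => hσ
  have hSK : ∀ σ ∈ S, ∀ x : K, σ (ι x) = ι x := fun σ hσ x =>
    map_eq_of_fixes_zeta ι hζ σ hσ x
  -- y
  have hu0 : (u : K) ≠ 0 := by
    intro h
    have : u = 0 := RingOfIntegers.coe_injective (by simpa using h)
    exact hu.ne_zero this
  have hy0 : y ≠ 0 := by
    intro h
    rw [h, zero_pow hp.ne_zero] at hy
    exact hu0 (ι.toRingHom.injective (by simpa using hy.symm))
  have hyint : IsIntegral ℤ y := by
    refine IsIntegral.of_pow hp.pos ?_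
    rw [hy]
    exact intEmb_isIntegral ι u
  have hyS : ∀ σ ∈ S, ∃ j : ℕ, σ y = ζ' ^ j * y := by
    intro σ hσ
    have h1 : (σ y / y) ^ p = 1 := by
      rw [div_pow, ← map_pow, hy, hSK σ hσ, div_self]
      rw [← hy]
      exact pow_ne_zero _ hy0
    obtain ⟨j, -, hj⟩ := hζ'.eq_pow_of_pow_eq_one h1
    refine ⟨j, ?_⟩
    rw [hj]
    field_simp
  -- existence of g
  have hex : ∃ σ ∈ S, σ y ≠ y := by
    by_contra hcon
    push Not at hcon
    obtain ⟨x, hx⟩ := mem_range_of_fixed ι y fun σ hσ => hcon σ (hσ ζ)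
    apply hnot
    refine ⟨x, ι.toRingHom.injective ?_⟩
    show ι (x ^ p) = ι (u : K)
    rw [map_pow, hx, hy]
  obtain ⟨σ, hσS, hσy⟩ := hex
  obtain ⟨j, hj⟩ := hyS σ hσS
  have hjne : ζ' ^ j ≠ 1 := by
    intro h
    rw [h, one_mul] at hj
    exact hσy hj
  have hpj : ¬ p ∣ j := fun h => hjne ((hζ'.pow_eq_one_iff_dvd j).mpr h)
  have hσpow : ∀ k : ℕ, (σ ^ k) y = ζ' ^ (j * k) * y := by
    intro k
    induction k with
    | zero => simp
    | succ k ih =>
      rw [pow_succ, AlgEquiv.mul_apply, hj, map_mul, map_pow, hSζ _ (S.pow_mem hσS k), ih]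
      ring
  obtain ⟨k, hk⟩ : ∃ k : ℕ, ζ' ^ (j * k) = ζ' := by
    have hcop : Nat.Coprime j p := (Nat.Coprime.symm ((Nat.Prime.coprime_iff_not_dvd hp).mpr hpj))
    obtain ⟨k, -, hk⟩ := Nat.exists_mul_mod_eq_one_of_coprime hcop hp.one_lt
    refine ⟨k, ?_⟩
    rw [pow_eq_pow_mod (j * k) hζ'.pow_eq_one, hk, pow_one]
  have hgy : (σ ^ k) y = ζ' * y := by rw [hσpow, hk]
  -- core
  obtain ⟨t, htint, htS, htv⟩ := exists_invariant_approx hp A hA S hSclosed ζ' hζ' hSζ y hyint hy0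
    hyS (σ ^ k) (S.pow_mem hσS k) hgy (fun τ hτ hτS => hfix τ hτ hτS) 1
  obtain ⟨t₀, ht₀⟩ := mem_range_of_fixed ι t fun τ hτ => htS τ (hτ ζ)
  have ht₀int : IsIntegral ℤ t₀ := by
    rw [← ht₀] at htint
    exact (isIntegral_algHom_iff (ι.restrictScalars ℤ) ι.toRingHom.injective).mp htint
  set T : 𝓞 K := ⟨t₀, ht₀int⟩ with hT
  have hTemb : intEmb ι T = t := ht₀
  have hassoc := IsCyclotomicExtension.Rat.associated_zeta_sub_one_pow_prime p hζ
  -- the valuation of p
  have hvp : A.valuation (p : Qbar) ≤ A.valuation (intEmb ι (hζ.toInteger - 1)) ^ (p - 1) := by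
    obtain ⟨v, hv⟩ := hassoc
    have h3 := congrArg (fun z => A.valuation (intEmb ι z)) hv
    simp only [map_pow, map_mul, map_natCast] at h3
    rw [← h3]
    exact mul_le_of_le_one_right zero_le (valuation_intEmb_le_one ι A _)
  -- u - T^p is small
  have hsmall : A.valuation (intEmb ι (u - T ^ p)) ≤
      A.valuation (intEmb ι (hζ.toInteger - 1)) ^ (p - 1) := by
    have e : intEmb ι (u - T ^ p) =
        (∑ i ∈ Finset.range p, y ^ i * t ^ (p - 1 - i)) * (y - t) := by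
      rw [map_sub, map_pow, hTemb, (Commute.all y t).geom_sum₂_mul, hy]
      rfl
    rw [e, map_mul]
    have h1 : A.valuation (∑ i ∈ Finset.range p, y ^ i * t ^ (p - 1 - i)) ≤ 1 := by
      refine (A.valuation_le_one_iff _).mpr (mem_valuationSubring_of_isIntegral_int A ?_)
      exact IsIntegral.sum _ fun i _ => (hyint.pow i).mul (htint.pow _)
    have h2 : A.valuation (y - t) ≤ A.valuation (intEmb ι (hζ.toInteger - 1)) ^ (p - 1) := by
      rw [← Valuation.map_neg, neg_sub]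
      refine htv.trans ?_
      rw [pow_one]
      exact hvp
    calc A.valuation (∑ i ∈ Finset.range p, y ^ i * t ^ (p - 1 - i)) * A.valuation (y - t)
        ≤ 1 * A.valuation (intEmb ι (hζ.toInteger - 1)) ^ (p - 1) := mul_le_mul' h1 h2
      _ = _ := one_mul _
  have hdvd1 : ((p : ℕ) : 𝓞 K) ∣ u - T ^ p :=
    hassoc.symm.dvd.trans (pi_pow_dvd_of_valuation_le ι hζ A hodd hA (p - 1) _ hsmall)
  -- T is congruent to an integer mod π
  have hπ : Prime (hζ.toInteger - 1) := hζ.zeta_sub_one_prime'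
  have hcard : Nat.card (𝓞 K ⧸ Ideal.span {hζ.toInteger - 1}) = p := by
    rw [IsPrimitiveRoot.card_quotient_toInteger_sub_one,
      hζ.norm_toInteger_sub_one_of_prime_ne_two' hodd]
    simp
  have hπp : (hζ.toInteger - 1) ∣ (p : 𝓞 K) := hζ.toInteger_sub_one_dvd_prime'
  obtain ⟨c, hc⟩ := Fermat.Agent.H9.exists_int_sub_dvd hp hπ hπp hcard T
  have hdvd2 : ((p : ℕ) : 𝓞 K) ∣ T ^ p - (c : 𝓞 K) ^ p :=
    Fermat.Agent.H9.natCast_dvd_pow_sub_pow hp hassoc.symm.dvd hc
  refine ⟨c ^ p, ?_⟩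
  have e : u - ((c ^ p : ℤ) : 𝓞 K) = (u - T ^ p) + (T ^ p - (c : 𝓞 K) ^ p) := by
    push_cast
    ring
  rw [e]
  exact dvd_add hdvd1 hdvd2

end Fermat.Agent.H81
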